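import Fermat.Agent.S14.LocalDu.LamDu

set_option autoImplicit false

open NumberField IsCyclotomicExtension Polynomial

namespace Fermat.Agent.S14

variable (p : ℕ) [Fact p.Prime] (K : Type) [Field K] [NumberField K]
  [IsCyclotomicExtension {p} ℚ K]

lemma sigO_zeta (b : (ZMod p)ˣ) : sigO p K b (zetaO p K) = zetaO p K ^ (b : ZMod p).val := by
  have h := Rat.galEquivZMod_smul_of_pow_eq p K (sig p K b) (zetaO_isPrimitiveRoot p K).pow_eq_one
  rw [sig, MulEquiv.apply_symm_apply] at h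
  exact h

lemma cycU_coe (c : (ZMod p)ˣ) :
    (cycU p K c : 𝓞 K) = ∑ i ∈ Finset.range (c : ZMod p).val, zetaO p K ^ i :=
  (geomSum_isUnit p K c).unit_spec

lemma cycU_mul (c : (ZMod p)ˣ) :
    (cycU p K c : 𝓞 K) * (zetaO p K - 1) = zetaO p K ^ (c : ZMod p).val - 1 := by
  rw [cycU_coe, geom_sum_mul]

lemma zetaO_sub_one_ne_zero : zetaO p K - 1 ≠ 0 := by
  intro h
  exact (zetaO_isPrimitiveRoot p K).ne_one (Fact.out : p.Prime).one_lt (sub_eq_zero.mp h)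

lemma sigO_cycU (b c : (ZMod p)ˣ) :
    sigO p K b (cycU p K c : 𝓞 K) * (cycU p K b : 𝓞 K) = (cycU p K (b * c) : 𝓞 K) := by
  apply mul_right_cancel₀ (zetaO_sub_one_ne_zero p K)
  have h1 := congrArg (sigO p K b) (cycU_mul p K c)
  rw [map_mul, map_sub, map_sub, map_pow, map_one, sigO_zeta] at h1
  rw [mul_assoc, cycU_mul, h1, cycU_mul, ← pow_mul, Units.val_mul, ZMod.val_mul]
  congr 1
  exact pow_eq_pow_mod _ (zetaO_isPrimitiveRoot p K).pow_eq_one

lemma sigU_cycU (b c : (ZMod p)ˣ) :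
    sigU p K b (cycU p K c) = cycU p K (b * c) * (cycU p K b)⁻¹ := by
  rw [eq_mul_inv_iff_mul_eq]
  ext
  rw [Units.val_mul]
  exact congrArg _ (sigO_cycU p K b c)

lemma nexp_mul_mexp (b c : (ZMod p)ˣ) :
    nexp p (b * c) * mexp p b = nexp p c + p * (nexp p (b * c) * mexp p b / p) := by
  have h1 : ((nexp p (b * c) * mexp p b : ℕ) : ZMod p) = (nexp p c : ZMod p) := by
    rw [Nat.cast_mul, nexp_cast, nexp_cast, mexp_cast, Units.val_mul]
    have hb : (b : ZMod p) ≠ 0 := b.ne_zero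
    have hc : (c : ZMod p) ≠ 0 := c.ne_zero
    field_simp
  have h2 : nexp p (b * c) * mexp p b % p = nexp p c % p :=
    (ZMod.natCast_eq_natCast_iff' _ _ p).mp h1
  have h3 : nexp p c < p := ZMod.val_lt _
  rw [Nat.mod_eq_of_lt h3] at h2
  conv_lhs => rw [← Nat.mod_add_div (nexp p (b * c) * mexp p b) p, h2]

theorem Du_eigen_aux (hp5 : 5 ≤ p) (b : (ZMod p)ˣ) :
    ∃ ε : (𝓞 K)ˣ, sigU p K b (Du p K) = Du p K ^ mexp p b * ε ^ p := by
  obtain ⟨s, hs⟩ := p_dvd_sum_nexp p hp5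
  set A : (𝓞 K)ˣ := ∏ c : (ZMod p)ˣ, cycU p K (b * c) ^ nexp p c with hA
  set Q : (𝓞 K)ˣ := ∏ c : (ZMod p)ˣ, cycU p K (b * c) ^ (nexp p (b * c) * mexp p b / p) with hQ
  have h1 : sigU p K b (Du p K) = A * ((cycU p K b)⁻¹) ^ (p * s) := by
    rw [Du, map_prod]
    simp_rw [map_pow, sigU_cycU, mul_pow]
    rw [Finset.prod_mul_distrib, Finset.prod_pow_eq_pow_sum, hs]
  have h2 : Du p K ^ mexp p b = A * Q ^ p := by
    rw [Du, ← Finset.prod_pow]
    rw [← Fintype.prod_equiv (Equiv.mulLeft b)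
      (fun c => (cycU p K (b * c) ^ nexp p (b * c)) ^ mexp p b)
      (fun c => (cycU p K c ^ nexp p c) ^ mexp p b) (fun c => rfl)]
    rw [hA, hQ, ← Finset.prod_pow, ← Finset.prod_mul_distrib]
    refine Finset.prod_congr rfl fun c _ => ?_
    rw [← pow_mul]
    conv_lhs => rw [nexp_mul_mexp, pow_add, mul_comm p, pow_mul]
  refine ⟨Q⁻¹ * ((cycU p K b)⁻¹) ^ s, ?_⟩
  rw [h1, h2, mul_pow, inv_pow Q, mul_assoc, mul_inv_cancel_left, ← pow_mul, mul_comm s p]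

end Fermat.Agent.S14
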