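import Fermat.Agent.S14.LocalDu.LamDu

set_option autoImplicit false

open NumberField IsCyclotomicExtension Polynomial

namespace Fermat.Agent.S14

variable (p : ℕ) [Fact p.Prime] (K : Type) [Field K] [NumberField K]
  [IsCyclotomicExtension {p} ℚ K]

/-- `ζ` as a unit -/
noncomputable def zetaU : (𝓞 K)ˣ :=
  ((zetaO_isPrimitiveRoot p K).isUnit (Fact.out : p.Prime).ne_zero).unit

lemma zetaU_coe : (zetaU p K : 𝓞 K) = zetaO p K := IsUnit.unit_spec _

lemma zetaU_pow_p : zetaU p K ^ p = 1 := by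
  ext
  rw [Units.val_pow_eq_pow_val, zetaU_coe, (zetaO_isPrimitiveRoot p K).pow_eq_one, Units.val_one]

lemma Lam_zetaU (hp5 : 5 ≤ p) :
    Multiplicative.toAdd (Lam p K hp5 (zetaU p K)) = (1, -1 / 2) := by
  rw [Lam_apply, zetaU_coe, phi_zeta]
  ext
  · simp [T3.l1]
  · simp [T3.l2]
    ring

lemma Lam_neg_one (hp5 : 5 ≤ p) : Lam p K hp5 (-1) = 1 := by
  have : Multiplicative.toAdd (Lam p K hp5 (-1)) = 0 := by
    rw [Lam_apply]
    ext
    · simp [T3.l1]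
    · simp [T3.l2]
  exact this

lemma torsion_eq (hp5 : 5 ≤ p) (t : (𝓞 K)ˣ) (ht : t ∈ Units.torsion K) :
    ∃ r : ℕ, t = zetaU p K ^ r ∨ t = -1 * zetaU p K ^ r := by
  have hodd : Odd p := (Fact.out : p.Prime).odd_of_ne_two (by omega)
  have hfin : IsOfFinOrder (((t : 𝓞 K) : K)) := by
    have h1 : IsOfFinOrder t := ht
    have h2 : IsOfFinOrder (t : 𝓞 K) := MonoidHom.isOfFinOrder (Units.coeHom (𝓞 K)) h1
    exact MonoidHom.isOfFinOrder (algebraMap (𝓞 K) K : 𝓞 K →* K) h2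
  obtain ⟨r, -, hr⟩ := (zeta_spec p ℚ K).exists_pow_or_neg_mul_pow_of_isOfFinOrder hodd hfin
  refine ⟨r, ?_⟩
  rcases hr with hr | hr
  · left
    ext
    rw [Units.val_pow_eq_pow_val, zetaU_coe]
    exact hr
  · right
    ext
    rw [Units.val_mul, Units.val_pow_eq_pow_val, zetaU_coe]
    have : (((-1 : (𝓞 K)ˣ) : 𝓞 K) * zetaO p K ^ r : 𝓞 K) = -(zetaO p K ^ r) := by simp
    rw [this]
    exact hr

theorem local_Du_aux (hp5 : 5 ≤ p) (k : ℕ) (ε t : (𝓞 K)ˣ) (ht : t ∈ Units.torsion K) (x : 𝓞 K)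
    (h : ((Du p K ^ k * ε ^ p * t : (𝓞 K)ˣ) : 𝓞 K) - x ^ p ∈ lam p K ^ 3) :
    p ∣ k ∧ ∃ t' : (𝓞 K)ˣ, t = t' ^ p := by
  have hodd : Odd p := (Fact.out : p.Prime).odd_of_ne_two (by omega)
  have hp0 : p ≠ 0 := (Fact.out : p.Prime).ne_zero
  have h2 := two_ne_zero_zmod p hp5
  have h3 := three_ne_zero_zmod p hp5
  have h24 : (24 : ZMod p) ≠ 0 := by
    have : (24 : ZMod p) = 2 * 2 * 2 * 3 := by norm_num
    rw [this]; exact mul_ne_zero (mul_ne_zero (mul_ne_zero h2 h2) h2) h3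
  set w : (𝓞 K)ˣ := Du p K ^ k * ε ^ p * t with hw
  have h0 := phi_eq_zero_of_mem p K hp5 h
  rw [map_sub, map_pow, sub_eq_zero] at h0
  have hu : IsUnit (phi p K hp5 x) := by
    have : IsUnit (phi p K hp5 x ^ p) := by
      rw [← h0]
      exact w.isUnit.map (phi p K hp5)
    exact (isUnit_pow_iff hp0).mp this
  have hL : Lam p K hp5 w = 1 := by
    have : Units.map (phi p K hp5 : 𝓞 K →* T3 (ZMod p)) w = hu.unit ^ p := by
      apply Units.ext
      rw [Units.val_pow_eq_pow_val, IsUnit.unit_spec]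
      exact h0
    rw [Lam, MonoidHom.comp_apply, this, map_pow, mult_pow_p]
  obtain ⟨r, hr⟩ := torsion_eq p K hp5 t ht
  have hLt : Multiplicative.toAdd (Lam p K hp5 t) = r • ((1 : ZMod p), (-1 / 2 : ZMod p)) := by
    rcases hr with hr | hr
    · rw [hr, map_pow, toAdd_pow, Lam_zetaU]
    · rw [hr, map_mul, Lam_neg_one, one_mul, map_pow, toAdd_pow, Lam_zetaU]
  have hL' : k • ((0 : ZMod p), (-1 / 24 : ZMod p)) + r • ((1 : ZMod p), (-1 / 2 : ZMod p)) = 0 := by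
    have : Multiplicative.toAdd (Lam p K hp5 w) = 0 := by rw [hL]; rfl
    rw [hw, (Lam p K hp5).map_mul, (Lam p K hp5).map_mul, Lam_pow_p, mul_one, toAdd_mul,
      (Lam p K hp5).map_pow, toAdd_pow, Lam_Du, hLt] at this
    exact this
  have e1 := congrArg Prod.fst hL'
  have e2 := congrArg Prod.snd hL'
  simp only [Prod.smul_mk, Prod.mk_add_mk, nsmul_eq_mul, mul_zero, mul_one, zero_add,
    Prod.fst_zero, Prod.snd_zero] at e1 e2
  rw [e1, zero_mul, add_zero] at e2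
  have hk : (k : ZMod p) = 0 := by
    rcases mul_eq_zero.mp e2 with h | h
    · exact h
    · exfalso
      rw [div_eq_zero_iff] at h
      rcases h with h | h
      · exact (neg_ne_zero.mpr one_ne_zero) h
      · exact h24 h
  refine ⟨(ZMod.natCast_eq_zero_iff k p).mp hk, ?_⟩
  obtain ⟨s, hs⟩ := (ZMod.natCast_eq_zero_iff r p).mp e1
  have hz : zetaU p K ^ r = 1 := by rw [hs, pow_mul, zetaU_pow_p, one_pow]
  rcases hr with hr | hr
  · exact ⟨1, by rw [hr, hz, one_pow]⟩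
  · exact ⟨-1, by rw [hr, hz, mul_one, hodd.neg_one_pow]⟩

end Fermat.Agent.S14
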