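import Fermat.Agent.S14.LocalDu.Phi

set_option autoImplicit false

open NumberField IsCyclotomicExtension Polynomial

namespace Fermat.Agent.S14

variable (p : ℕ) [Fact p.Prime] (K : Type) [Field K] [NumberField K]
  [IsCyclotomicExtension {p} ℚ K]

lemma nexp_cast (c : (ZMod p)ˣ) : (nexp p c : ZMod p) = ((c : ZMod p)⁻¹) ^ 2 := by
  rw [nexp, ZMod.natCast_zmod_val, Units.val_pow_eq_pow_val, Units.val_inv_eq_inv_val]

lemma mexp_cast (c : (ZMod p)ˣ) : (mexp p c : ZMod p) = (c : ZMod p) ^ 2 := by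
  rw [mexp, ZMod.natCast_zmod_val, Units.val_pow_eq_pow_val]

lemma sum_inv_pow (i : ℕ) :
    ∑ c : (ZMod p)ˣ, ((c : ZMod p)⁻¹) ^ i = if p - 1 ∣ i then -1 else 0 := by
  have h := FiniteField.sum_pow_units (ZMod p) i
  rw [ZMod.card] at h
  rw [← h]
  refine Fintype.sum_equiv (Equiv.inv _) _ _ ?_
  intro c
  rw [Equiv.inv_apply, Units.val_inv_eq_inv_val]

lemma sum_inv_pow_one (hp5 : 5 ≤ p) : ∑ c : (ZMod p)ˣ, ((c : ZMod p)⁻¹) = 0 := by
  have h := sum_inv_pow p 1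
  rw [if_neg] at h
  · simpa only [pow_one] using h
  · intro hd
    have := Nat.le_of_dvd (by norm_num) hd
    omega

lemma sum_inv_pow_two (hp5 : 5 ≤ p) : ∑ c : (ZMod p)ˣ, ((c : ZMod p)⁻¹) ^ 2 = 0 := by
  have h := sum_inv_pow p 2
  rw [if_neg] at h
  · exact h
  · intro hd
    have := Nat.le_of_dvd (by norm_num) hd
    omega

lemma sum_one_units : ∑ _c : (ZMod p)ˣ, (1 : ZMod p) = -1 := by
  have h := sum_inv_pow p 0
  simpa only [pow_zero, dvd_zero, if_true] using h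

lemma p_dvd_sum_nexp (hp5 : 5 ≤ p) : p ∣ ∑ c : (ZMod p)ˣ, nexp p c := by
  rw [← ZMod.natCast_eq_zero_iff, Nat.cast_sum]
  simp_rw [nexp_cast]
  exact sum_inv_pow_two p hp5

lemma Lam_Du (hp5 : 5 ≤ p) :
    Multiplicative.toAdd (Lam p K hp5 (Du p K)) = (0, -1 / 24) := by
  have h2 := two_ne_zero_zmod p hp5
  have h3 := three_ne_zero_zmod p hp5
  have h24 : (24 : ZMod p) ≠ 0 := by
    have : (24 : ZMod p) = 2 * 2 * 2 * 3 := by norm_num
    rw [this]; exact mul_ne_zero (mul_ne_zero (mul_ne_zero h2 h2) h2) h3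
  rw [Du, map_prod, toAdd_prod]
  simp_rw [map_pow, toAdd_pow, Lam_cycU]
  ext
  · rw [Prod.fst_sum]
    simp only [Prod.smul_mk, nsmul_eq_mul, nexp_cast]
    have : ∀ c : (ZMod p)ˣ, ((c : ZMod p)⁻¹) ^ 2 * (((c : ZMod p) - 1) / 2) =
        ((c : ZMod p)⁻¹ - ((c : ZMod p)⁻¹) ^ 2) / 2 := by
      intro c
      have hc : (c : ZMod p) ≠ 0 := c.ne_zero
      field_simp
    simp_rw [this]
    rw [← Finset.sum_div, Finset.sum_sub_distrib, sum_inv_pow_one p hp5, sum_inv_pow_two p hp5]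
    simp
  · rw [Prod.snd_sum]
    simp only [Prod.smul_mk, nsmul_eq_mul, nexp_cast]
    have : ∀ c : (ZMod p)ˣ, ((c : ZMod p)⁻¹) ^ 2 * (((c : ZMod p) ^ 2 - 6 * c + 5) / 24) =
        (1 - 6 * (c : ZMod p)⁻¹ + 5 * ((c : ZMod p)⁻¹) ^ 2) / 24 := by
      intro c
      have hc : (c : ZMod p) ≠ 0 := c.ne_zero
      field_simp
    simp_rw [this]
    rw [← Finset.sum_div, Finset.sum_add_distrib, Finset.sum_sub_distrib, ← Finset.mul_sum,
      ← Finset.mul_sum, sum_inv_pow_one p hp5, sum_inv_pow_two p hp5, sum_one_units]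
    simp

end Fermat.Agent.S14
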