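import Mathlib

set_option autoImplicit false

namespace Fermat.Agent.S14

/-- `F[t]/t^3`, as triples of coefficients -/
@[ext] structure T3 (F : Type) where
  a : F
  b : F
  c : F

namespace T3

variable {F : Type}

section ring
variable [CommRing F]

instance : Zero (T3 F) := ⟨⟨0, 0, 0⟩⟩
instance : One (T3 F) := ⟨⟨1, 0, 0⟩⟩
instance : Add (T3 F) := ⟨fun x y => ⟨x.a + y.a, x.b + y.b, x.c + y.c⟩⟩
instance : Neg (T3 F) := ⟨fun x => ⟨-x.a, -x.b, -x.c⟩⟩
instance : Mul (T3 F) :=
  ⟨fun x y => ⟨x.a * y.a, x.a * y.b + x.b * y.a, x.a * y.c + x.b * y.b + x.c * y.a⟩⟩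

@[simp] lemma zero_a : (0 : T3 F).a = 0 := rfl
@[simp] lemma zero_b : (0 : T3 F).b = 0 := rfl
@[simp] lemma zero_c : (0 : T3 F).c = 0 := rfl
@[simp] lemma one_a : (1 : T3 F).a = 1 := rfl
@[simp] lemma one_b : (1 : T3 F).b = 0 := rfl
@[simp] lemma one_c : (1 : T3 F).c = 0 := rfl
@[simp] lemma add_a (x y : T3 F) : (x + y).a = x.a + y.a := rfl
@[simp] lemma add_b (x y : T3 F) : (x + y).b = x.b + y.b := rfl
@[simp] lemma add_c (x y : T3 F) : (x + y).c = x.c + y.c := rfl
@[simp] lemma neg_a (x : T3 F) : (-x).a = -x.a := rfl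
@[simp] lemma neg_b (x : T3 F) : (-x).b = -x.b := rfl
@[simp] lemma neg_c (x : T3 F) : (-x).c = -x.c := rfl
@[simp] lemma mul_a (x y : T3 F) : (x * y).a = x.a * y.a := rfl
@[simp] lemma mul_b (x y : T3 F) : (x * y).b = x.a * y.b + x.b * y.a := rfl
@[simp] lemma mul_c (x y : T3 F) : (x * y).c = x.a * y.c + x.b * y.b + x.c * y.a := rfl

instance : CommRing (T3 F) where
  add_assoc x y z := by ext <;> simp [add_assoc]
  zero_add x := by ext <;> simp
  add_zero x := by ext <;> simp
  add_comm x y := by ext <;> simp [add_comm]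
  neg_add_cancel x := by ext <;> simp
  mul_assoc x y z := by ext <;> simp <;> ring
  one_mul x := by ext <;> simp
  mul_one x := by ext <;> simp
  mul_comm x y := by ext <;> simp <;> ring
  left_distrib x y z := by ext <;> simp <;> ring
  right_distrib x y z := by ext <;> simp <;> ring
  zero_mul x := by ext <;> simp
  mul_zero x := by ext <;> simp
  nsmul := nsmulRec
  zsmul := zsmulRec

/-- the constants -/
def C : F →+* T3 F where
  toFun x := ⟨x, 0, 0⟩
  map_one' := rfl
  map_zero' := rfl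
  map_mul' x y := by ext <;> simp
  map_add' x y := by ext <;> simp

@[simp] lemma C_a (x : F) : (C x).a = x := rfl
@[simp] lemma C_b (x : F) : (C x).b = 0 := rfl
@[simp] lemma C_c (x : F) : (C x).c = 0 := rfl

/-- the constant coefficient -/
def aHom : T3 F →+* F where
  toFun x := x.a
  map_one' := rfl
  map_zero' := rfl
  map_mul' _ _ := rfl
  map_add' _ _ := rfl

@[simp] lemma aHom_apply (x : T3 F) : aHom x = x.a := rfl

/-- the variable -/
def t : T3 F := ⟨0, 1, 0⟩

@[simp] lemma t_a : (t : T3 F).a = 0 := rfl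
@[simp] lemma t_b : (t : T3 F).b = 1 := rfl
@[simp] lemma t_c : (t : T3 F).c = 0 := rfl

lemma t_pow_three : (t : T3 F) ^ 3 = 0 := by
  ext <;> simp [pow_succ]

lemma t_pow_eq_zero {n : ℕ} (hn : 3 ≤ n) : (t : T3 F) ^ n = 0 := by
  obtain ⟨k, rfl⟩ := Nat.exists_eq_add_of_le hn
  rw [pow_add, t_pow_three, zero_mul]

lemma natCast_eq_C (n : ℕ) : (n : T3 F) = C (n : F) := (map_natCast C n).symm

instance (p : ℕ) [CharP F p] : CharP (T3 F) p where
  cast_eq_zero_iff n := by
    rw [natCast_eq_C, ← CharP.cast_eq_zero_iff F p n]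
    constructor
    · intro h
      exact congrArg T3.a h
    · intro h
      rw [h, map_zero]

end ring

section field
variable [Field F]

lemma a_ne_zero_of_isUnit {x : T3 F} (hx : IsUnit x) : x.a ≠ 0 :=
  (hx.map aHom).ne_zero

/-- first logarithmic coefficient -/
def l1 (x : T3 F) : F := x.b / x.a
/-- second logarithmic coefficient -/
def l2 (x : T3 F) : F := x.c / x.a - (x.b / x.a) ^ 2 / 2

lemma l1_mul {x y : T3 F} (hx : x.a ≠ 0) (hy : y.a ≠ 0) : l1 (x * y) = l1 x + l1 y := by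
  simp only [l1, mul_a, mul_b]
  field_simp
  ring

lemma l2_mul (h2 : (2 : F) ≠ 0) {x y : T3 F} (hx : x.a ≠ 0) (hy : y.a ≠ 0) :
    l2 (x * y) = l2 x + l2 y := by
  simp only [l2, mul_a, mul_b, mul_c]
  field_simp
  ring

/-- the logarithm `(F[t]/t^3)ˣ → F × F` -/
def logHom (h2 : (2 : F) ≠ 0) : (T3 F)ˣ →* Multiplicative (F × F) where
  toFun x := Multiplicative.ofAdd (l1 (x : T3 F), l2 (x : T3 F))
  map_one' := by simp [l1, l2]
  map_mul' x y := by
    rw [← ofAdd_add]
    congr 1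
    ext
    · exact l1_mul (a_ne_zero_of_isUnit x.isUnit) (a_ne_zero_of_isUnit y.isUnit)
    · exact l2_mul h2 (a_ne_zero_of_isUnit x.isUnit) (a_ne_zero_of_isUnit y.isUnit)

lemma logHom_apply (h2 : (2 : F) ≠ 0) (x : (T3 F)ˣ) :
    Multiplicative.toAdd (logHom h2 x) = (l1 (x : T3 F), l2 (x : T3 F)) := rfl

lemma one_add_t_pow (h2 : (2 : F) ≠ 0) (i : ℕ) :
    ((1 : T3 F) + t) ^ i = ⟨1, i, (i : F) * (i - 1) / 2⟩ := by
  induction i with
  | zero => ext <;> simp
  | succ n ih =>
    rw [pow_succ, ih]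
    ext
    · simp
    · simp [add_comm]
    · simp
      field_simp
      ring

lemma geom_one_add_t (h2 : (2 : F) ≠ 0) (h3 : (3 : F) ≠ 0) (n : ℕ) :
    ∑ i ∈ Finset.range n, ((1 : T3 F) + t) ^ i =
      ⟨n, (n : F) * (n - 1) / 2, (n : F) * (n - 1) * (n - 2) / 6⟩ := by
  have h6 : (6 : F) ≠ 0 := by
    have : (6 : F) = 2 * 3 := by norm_num
    rw [this]; exact mul_ne_zero h2 h3
  induction n with
  | zero => ext <;> simp
  | succ n ih =>
    rw [Finset.sum_range_succ, ih, one_add_t_pow h2]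
    ext
    · simp
    · simp
      field_simp
      ring
    · simp
      field_simp
      ring

end field

end T3

end Fermat.Agent.S14
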