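import Fermat.Agent.S14.Defs
import Fermat.Agent.S14.LocalDu.Trunc

set_option autoImplicit false

open NumberField IsCyclotomicExtension Polynomial

namespace Fermat.Agent.S14

variable (p : ℕ) [Fact p.Prime] (K : Type) [Field K] [NumberField K]
  [IsCyclotomicExtension {p} ℚ K]

lemma two_ne_zero_zmod (hp5 : 5 ≤ p) : (2 : ZMod p) ≠ 0 := by
  intro h
  have h' : ((2 : ℕ) : ZMod p) = 0 := by exact_mod_cast h
  rw [ZMod.natCast_eq_zero_iff] at h'
  have := Nat.le_of_dvd (by norm_num) h'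
  omega

lemma three_ne_zero_zmod (hp5 : 5 ≤ p) : (3 : ZMod p) ≠ 0 := by
  intro h
  have h' : ((3 : ℕ) : ZMod p) = 0 := by exact_mod_cast h
  rw [ZMod.natCast_eq_zero_iff] at h'
  have := Nat.le_of_dvd (by norm_num) h'
  omega

lemma aeval_one_add_t (hp5 : 5 ≤ p) :
    aeval ((1 : T3 (ZMod p)) + T3.t) (minpoly ℤ (zeta_spec p ℚ K).integralPowerBasis.gen) = 0 := by
  rw [IsPrimitiveRoot.integralPowerBasis_gen]
  have h1 : minpoly ℤ (zeta_spec p ℚ K).toInteger = cyclotomic p ℤ := by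
    rw [cyclotomic_eq_minpoly (zeta_spec p ℚ K) (Fact.out : p.Prime).pos]
    exact (minpoly.algebraMap_eq (RingOfIntegers.coe_injective) _).symm
  rw [h1, aeval_def, eval₂_eq_eval_map, map_cyclotomic]
  have h2 := cyclotomic_mul_prime_eq_pow_of_not_dvd (T3 (ZMod p)) (p := p) (n := 1)
    (by simpa using (Fact.out : p.Prime).one_lt.ne')
  rw [one_mul, cyclotomic_one] at h2
  rw [h2, eval_pow, eval_sub, eval_X, eval_one, add_sub_cancel_left]
  exact T3.t_pow_eq_zero (by omega)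

/-- reduction modulo `(ζ - 1)^3` -/
noncomputable def phi (hp5 : 5 ≤ p) : 𝓞 K →ₐ[ℤ] T3 (ZMod p) :=
  (zeta_spec p ℚ K).integralPowerBasis.lift (1 + T3.t) (aeval_one_add_t p K hp5)

lemma phi_zeta (hp5 : 5 ≤ p) : phi p K hp5 (zetaO p K) = 1 + T3.t := by
  have := (zeta_spec p ℚ K).integralPowerBasis.lift_gen _ (aeval_one_add_t p K hp5)
  rwa [IsPrimitiveRoot.integralPowerBasis_gen] at this

lemma phi_eq_zero_of_mem (hp5 : 5 ≤ p) {x : 𝓞 K} (hx : x ∈ lam p K ^ 3) :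
    phi p K hp5 x = 0 := by
  rw [lam, Ideal.span_singleton_pow, Ideal.mem_span_singleton] at hx
  obtain ⟨y, rfl⟩ := hx
  rw [map_mul, map_pow, map_sub, phi_zeta, map_one, add_sub_cancel_left, T3.t_pow_three, zero_mul]

/-- the logarithm on global units -/
noncomputable def Lam (hp5 : 5 ≤ p) : (𝓞 K)ˣ →* Multiplicative (ZMod p × ZMod p) :=
  (T3.logHom (two_ne_zero_zmod p hp5)).comp (Units.map (phi p K hp5 : 𝓞 K →* T3 (ZMod p)))

lemma Lam_apply (hp5 : 5 ≤ p) (u : (𝓞 K)ˣ) :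
    Multiplicative.toAdd (Lam p K hp5 u) =
      (T3.l1 (phi p K hp5 (u : 𝓞 K)), T3.l2 (phi p K hp5 (u : 𝓞 K))) := rfl

lemma mult_pow_p (x : Multiplicative (ZMod p × ZMod p)) : x ^ p = 1 := by
  have : Multiplicative.toAdd (x ^ p) = 0 := by
    rw [toAdd_pow]
    ext <;> simp
  exact this

lemma Lam_pow_p (hp5 : 5 ≤ p) (u : (𝓞 K)ˣ) : Lam p K hp5 (u ^ p) = 1 := by
  rw [map_pow, mult_pow_p]

lemma phi_cycU (hp5 : 5 ≤ p) (c : (ZMod p)ˣ) :
    phi p K hp5 (cycU p K c : 𝓞 K) =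
      ⟨(c : ZMod p), (c : ZMod p) * (c - 1) / 2, (c : ZMod p) * (c - 1) * (c - 2) / 6⟩ := by
  have h : (cycU p K c : 𝓞 K) = ∑ i ∈ Finset.range (c : ZMod p).val, zetaO p K ^ i :=
    (geomSum_isUnit p K c).unit_spec
  rw [h, map_sum]
  simp_rw [map_pow, phi_zeta]
  rw [T3.geom_one_add_t (two_ne_zero_zmod p hp5) (three_ne_zero_zmod p hp5)]
  simp

lemma Lam_cycU (hp5 : 5 ≤ p) (c : (ZMod p)ˣ) :
    Multiplicative.toAdd (Lam p K hp5 (cycU p K c)) =
      (((c : ZMod p) - 1) / 2, ((c : ZMod p) ^ 2 - 6 * c + 5) / 24) := by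
  have h2 := two_ne_zero_zmod p hp5
  have h3 := three_ne_zero_zmod p hp5
  have hc : (c : ZMod p) ≠ 0 := c.ne_zero
  have h6 : (6 : ZMod p) ≠ 0 := by
    have : (6 : ZMod p) = 2 * 3 := by norm_num
    rw [this]; exact mul_ne_zero h2 h3
  have h24 : (24 : ZMod p) ≠ 0 := by
    have : (24 : ZMod p) = 2 * 2 * 2 * 3 := by norm_num
    rw [this]; exact mul_ne_zero (mul_ne_zero (mul_ne_zero h2 h2) h2) h3
  rw [Lam_apply, phi_cycU]
  ext
  · simp only [T3.l1]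
    field_simp
  · simp only [T3.l2]
    field_simp
    ring

end Fermat.Agent.S14
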